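/-
S48 / DS / Abstract : the Deligne--Serre lifting lemma in "valuation form".

`V` a finite dimensional complex vector space with commuting operators `T i`, a family of linear
functionals `c j` ("all q-coefficients of all diamond translates"), `v` ANY valuation on `ℂ`.
If the `T i` are `v`-integral with respect to the `c j` (they preserve `{g | ∀ j, v (c j g) ≤ 1}` and
`{g | ∀ j, v (c j g) < 1}`), and `F` is a vector with `v (c j₀ F) = 1`
which is an eigenvector modulo `v < 1` with eigenvalues `α i`, then there is a genuine simultaneous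
eigenvector `F' ≠ 0` whose eigenvalues `β i` satisfy `v (β i - α i) < 1`.
No lattice, no finiteness, no integrality hypothesis is needed.
-/
import Fermat.Agent.S49.LinAlg

set_option autoImplicit false

namespace Fermat.Agent.S48.DS

open Module

variable {V : Type*} [AddCommGroup V] [Module ℂ V] [FiniteDimensional ℂ V]
variable {Γ₀ : Type*} [LinearOrderedCommGroupWithZero Γ₀]

theorem ds_abstract (v : Valuation ℂ Γ₀) {ι J : Type*}
    (T : ι → Module.End ℂ V) (hcomm : ∀ i i', Commute (T i) (T i'))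
    (c : J → V →ₗ[ℂ] ℂ)
    (hT1 : ∀ i g, (∀ j, v (c j g) ≤ 1) → ∀ j, v (c j (T i g)) ≤ 1)
    (hT2 : ∀ i g, (∀ j, v (c j g) < 1) → ∀ j, v (c j (T i g)) < 1)
    (F : V) (j₀ : J) (hF0 : v (c j₀ F) = 1)
    (α : ι → ℂ) (hα1 : ∀ i, v (α i) ≤ 1)
    (hα : ∀ i j, v (c j (T i F) - α i * c j F) < 1) :
    ∃ (F' : V) (β : ι → ℂ), F' ≠ 0 ∧ (∀ i, T i F' = β i • F') ∧ ∀ i, v (β i - α i) < 1 := by
  classical
  set Λ : V → Prop := fun g => ∀ j, v (c j g) ≤ 1 with hΛ
  set Λ' : V → Prop := fun g => ∀ j, v (c j g) < 1 with hΛ'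
  -- closure properties
  have Λ'_add : ∀ g h, Λ' g → Λ' h → Λ' (g + h) := by
    intro g h hg hh j
    rw [map_add]
    exact v.map_add_lt (hg j) (hh j)
  have Λ_add : ∀ g h, Λ g → Λ h → Λ (g + h) := by
    intro g h hg hh j
    rw [map_add]
    exact v.map_add_le (hg j) (hh j)
  have Λ'_smul : ∀ (a : ℂ) g, v a ≤ 1 → Λ' g → Λ' (a • g) := by
    intro a g ha hg j
    rw [map_smul, smul_eq_mul, map_mul]
    exact Right.mul_lt_one_of_le_of_lt ha (hg j)
  have Λ_smul : ∀ (a : ℂ) g, v a ≤ 1 → Λ g → Λ (a • g) := by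
    intro a g ha hg j
    rw [map_smul, smul_eq_mul, map_mul]
    exact mul_le_one' ha (hg j)
  have TΛ : ∀ i g, Λ g → Λ (T i g) := hT1
  have TΛ' : ∀ i g, Λ' g → Λ' (T i g) := hT2
  let 𝔸 : Subalgebra ℂ (Module.End ℂ V) := Algebra.adjoin ℂ (Set.range T)
  have h𝔸comm : ∀ s ∈ 𝔸, ∀ t ∈ 𝔸, Commute s t := by
    intro s hs t ht
    have hc : IsMulCommutative 𝔸 := Algebra.isMulCommutative_adjoin ℂ (s := Set.range T) (by
      rintro _ ⟨i, rfl⟩ _ ⟨i', rfl⟩
      exact (hcomm i i').eq)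
    exact congrArg Subtype.val (hc.is_comm.comm (⟨s, hs⟩ : 𝔸) ⟨t, ht⟩)
  let P : Module.End ℂ V → Prop := fun t =>
    t ∈ 𝔸 ∧ (∀ g, Λ g → Λ (t g)) ∧ (∀ g, Λ' g → Λ' (t g))
  let A : Set (Module.End ℂ V) := {t | P t}
  let S : Set (Module.End ℂ V) := {t | P t ∧ ∃ a : ℂ, v a = 1 ∧ Λ' (t F - a • F)}
  have hTA : ∀ i, T i ∈ A := fun i =>
    ⟨Algebra.subset_adjoin ⟨i, rfl⟩, TΛ i, TΛ' i⟩
  obtain ⟨w, hw0, hweig, hwS⟩ := S49.exists_simultaneous_eigenvector_avoiding (K := ℂ) (V := V) A S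
    (fun s hs t ht => h𝔸comm s hs.1 t ht.1)
    (fun t ht => ht.1)
    ⟨1, ⟨𝔸.one_mem, fun g hg => hg, fun g hg => hg⟩, 1, map_one v, by
      intro j
      simp⟩
    (by
      rintro s ⟨⟨hs1, hs2, hs3⟩, a, ha, hsa⟩ t ⟨⟨ht1, ht2, ht3⟩, b, hb, htb⟩
      refine ⟨⟨𝔸.mul_mem hs1 ht1, fun g hg => hs2 _ (ht2 _ hg), fun g hg => hs3 _ (ht3 _ hg)⟩,
        a * b, by rw [map_mul, ha, hb, one_mul], ?_⟩
      have e : (s * t) F - (a * b) • F = s (t F - b • F) + b • (s F - a • F) := by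
        rw [Module.End.mul_apply, map_sub, map_smul, smul_sub, smul_smul, mul_comm b a]
        abel
      rw [e]
      exact Λ'_add _ _ (hs3 _ htb) (Λ'_smul _ _ hb.le hsa))
    (by
      rintro ⟨-, a, ha, h0⟩
      have h1 := h0 j₀
      rw [LinearMap.zero_apply, zero_sub, map_neg, map_smul, smul_eq_mul, Valuation.map_neg, map_mul,
        ha, hF0, one_mul] at h1
      exact lt_irrefl _ h1)
  have hβ : ∀ i, ∃ b : ℂ, T i w = b • w := fun i => hweig _ (hTA i)
  choose β hβ using hβ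
  refine ⟨w, β, hw0, hβ, fun i => ?_⟩
  by_contra hcon
  rw [not_lt] at hcon
  set δ : ℂ := β i - α i with hδ
  have hδ0 : δ ≠ 0 := by
    intro h
    rw [h, map_zero] at hcon
    exact absurd hcon (not_le.2 zero_lt_one)
  have hδinv : v δ⁻¹ ≤ 1 := by
    rw [map_inv₀]
    exact inv_le_one_of_one_le₀ hcon
  have hβδ : δ⁻¹ * β i = 1 + δ⁻¹ * α i := by
    have : β i = δ + α i := by rw [hδ]; ring
    rw [this]
    field_simp
  have hβδv : v (δ⁻¹ * β i) ≤ 1 := by
    rw [hβδ]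
    refine v.map_add_le (map_one v).le ?_
    rw [map_mul]
    exact mul_le_one' hδinv (hα1 i)
  let s : Module.End ℂ V := δ⁻¹ • T i - (δ⁻¹ * β i) • (1 : Module.End ℂ V)
  have hs_apply : ∀ g, s g = δ⁻¹ • T i g + (-(δ⁻¹ * β i)) • g := by
    intro g
    simp only [s, LinearMap.sub_apply, LinearMap.smul_apply, Module.End.one_apply, neg_smul]
    abel
  have hsS : s ∈ S := by
    refine ⟨⟨?_, ?_, ?_⟩, -1, by rw [Valuation.map_neg, map_one], ?_⟩
    · exact 𝔸.sub_mem (𝔸.smul_mem (Algebra.subset_adjoin ⟨i, rfl⟩) _) (𝔸.smul_mem 𝔸.one_mem _)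
    · intro g hg
      rw [hs_apply]
      exact Λ_add _ _ (Λ_smul _ _ hδinv (TΛ i g hg))
        (Λ_smul _ _ (by rw [Valuation.map_neg]; exact hβδv) hg)
    · intro g hg
      rw [hs_apply]
      exact Λ'_add _ _ (Λ'_smul _ _ hδinv (TΛ' i g hg))
        (Λ'_smul _ _ (by rw [Valuation.map_neg]; exact hβδv) hg)
    · have e : s F - (-1 : ℂ) • F = δ⁻¹ • (T i F - α i • F) := by
        rw [hs_apply, hβδ, smul_sub, smul_smul, neg_smul, neg_smul, add_smul, one_smul]
        abel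
      rw [e]
      refine Λ'_smul _ _ hδinv fun j => ?_
      rw [map_sub, map_smul, smul_eq_mul]
      exact hα i j
  apply hwS s hsS
  rw [hs_apply, hβ, smul_smul, neg_smul, add_neg_cancel]

end Fermat.Agent.S48.DS
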