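/-
S48 / DS / Formal : the Deligne--Serre lifting lemma for "spaces of modular forms with diamonds",
stated for an ABSTRACT space `S` (no dependence on the shapes chosen in parts H / E1).

* `exists_valuationSubring` : a proper ideal `I` of `Zbar = integralClosure ℤ ℂ` is contained in the
  maximal ideal of a valuation subring of `ℂ` containing all algebraic integers.
* `ds_formal` : `S` finite dimensional, `a n : S → ℂ` (q-coefficients), diamond operators `dia d`,
  Hecke operators `Tp p` (`p` prime, `p ∤ M`), all commuting, with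
  `a n (Tp p g) = a (p n) g + w p * a (n/p) (dia p g)`   (`w p = p^(k-1)`).
  `F ∈ S` with `a n (dia d F) ≡ χ d * x n` (mod `v < 1`), where `x` satisfies the formal Hecke relations
  `x (p n) + e p * x (n/p) = x p * x n`, `x 1 = 1`, `w p * χ p ≡ e p`, `χ` multiplicative mod `v < 1`.
  Then there is an eigenvector `F' ≠ 0`, `Tp p F' = b p • F'`, `dia d F' = ψ d • F'`,
  `b p ≡ x p`, `ψ d ≡ χ d`, `w p * ψ p ≡ e p`.
-/
import Fermat.Agent.S48.DS.Abstract

set_option autoImplicit false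

namespace Fermat.Agent.S48.DS

open Module

theorem exists_valuationSubring (I : Ideal (integralClosure ℤ ℂ)) (hI : I ≠ ⊤) :
    ∃ 𝒱 : ValuationSubring ℂ, (∀ x : ℂ, IsIntegral ℤ x → 𝒱.valuation x ≤ 1) ∧
      ∀ x ∈ I, 𝒱.valuation (x : ℂ) < 1 := by
  obtain ⟨B, h1, h2⟩ := Ideal.image_subset_nonunits_valuationSubring
    (K := ℂ) (A := (integralClosure ℤ ℂ).toSubring) I hI
  refine ⟨B, fun x hx => ?_, fun x hx => ?_⟩
  · rw [ValuationSubring.valuation_le_one_iff]
    exact h1 hx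
  · have : (x : ℂ) ∈ B.nonunits := h2 ⟨x, hx, rfl⟩
    exact (ValuationSubring.mem_nonunits_iff B).1 this

variable {S : Type*} [AddCommGroup S] [Module ℂ S] [FiniteDimensional ℂ S]
variable {Γ₀ : Type*} [LinearOrderedCommGroupWithZero Γ₀]

/-- congruence modulo the maximal ideal of a valuation. -/
def Cong (v : Valuation ℂ Γ₀) (x y : ℂ) : Prop := v (x - y) < 1

namespace Cong
variable {v : Valuation ℂ Γ₀} {x y z x' y' : ℂ}

theorem refl (x : ℂ) : Cong v x x := by
  unfold Cong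
  rw [sub_self, map_zero]
  exact zero_lt_one

theorem of_eq (h : x = y) : Cong v x y := h ▸ refl x

theorem symm (h : Cong v x y) : Cong v y x := by
  unfold Cong at *
  rwa [← Valuation.map_neg, neg_sub]

theorem trans (h : Cong v x y) (h' : Cong v y z) : Cong v x z := by
  unfold Cong at *
  have : x - z = (x - y) + (y - z) := by ring
  rw [this]
  exact v.map_add_lt h h'

theorem add (h : Cong v x y) (h' : Cong v x' y') : Cong v (x + x') (y + y') := by
  unfold Cong at *
  have : x + x' - (y + y') = (x - y) + (x' - y') := by ring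
  rw [this]
  exact v.map_add_lt h h'

theorem sub (h : Cong v x y) (h' : Cong v x' y') : Cong v (x - x') (y - y') := by
  unfold Cong at *
  have : x - x' - (y - y') = (x - y) + -(x' - y') := by ring
  rw [this]
  exact v.map_add_lt h (by rwa [Valuation.map_neg])

theorem mul_left (hz : v z ≤ 1) (h : Cong v x y) : Cong v (z * x) (z * y) := by
  unfold Cong at *
  rw [← mul_sub, map_mul]
  exact Right.mul_lt_one_of_le_of_lt hz h

theorem le_one (h : Cong v x y) (hy : v y ≤ 1) : v x ≤ 1 := by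
  unfold Cong at *
  have : x = (x - y) + y := by ring
  rw [this]
  exact v.map_add_le h.le hy

theorem mul (h : Cong v x y) (h' : Cong v x' y') (hy : v y ≤ 1) (hy' : v y' ≤ 1) :
    Cong v (x * x') (y * y') := by
  have h1 : Cong v (x * x') (x * y') := mul_left (h.le_one hy) h'
  have h2 : Cong v (x * y') (y * y') := by
    rw [mul_comm x, mul_comm y]
    exact mul_left hy' h
  exact h1.trans h2

theorem val_eq_one (h : Cong v x 1) : v x = 1 := by
  unfold Cong at h
  have : x = 1 + (x - 1) := by ring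
  rw [this]
  exact v.map_one_add_of_lt h

end Cong

theorem ds_formal (v : Valuation ℂ Γ₀) (M : ℕ)
    (a : ℕ → S →ₗ[ℂ] ℂ)
    (dia : (ZMod M)ˣ → Module.End ℂ S)
    (dia_mul : ∀ d d', dia (d * d') = dia d * dia d')
    (Tp : ℕ → Module.End ℂ S)
    (hTT : ∀ p p', p.Prime → ¬ p ∣ M → p'.Prime → ¬ p' ∣ M → Commute (Tp p) (Tp p'))
    (hTd : ∀ p d, p.Prime → ¬ p ∣ M → Commute (Tp p) (dia d))
    (u : ℕ → (ZMod M)ˣ) (w : ℕ → ℂ) (hw : ∀ p, v (w p) ≤ 1)
    (hcoeff : ∀ p, p.Prime → ¬ p ∣ M → ∀ n g,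
      a n (Tp p g) = a (p * n) g + w p * (if p ∣ n then a (n / p) (dia (u p) g) else 0))
    (F : S) (x : ℕ → ℂ) (χ : (ZMod M)ˣ → ℂ) (e : ℕ → ℂ)
    (hx : ∀ n, v (x n) ≤ 1) (hχ : ∀ d, v (χ d) ≤ 1)
    (hχ1 : Cong v (χ 1) 1) (hχmul : ∀ d d', Cong v (χ (d * d')) (χ d * χ d'))
    (hx1 : x 1 = 1)
    (hrel : ∀ p, p.Prime → ¬ p ∣ M → ∀ n,
      x (p * n) + e p * (if p ∣ n then x (n / p) else 0) = x p * x n)
    (hwe : ∀ p, p.Prime → ¬ p ∣ M → Cong v (w p * χ (u p)) (e p))
    (hF : ∀ n d, Cong v (a n (dia d F)) (χ d * x n)) :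
    ∃ (F' : S) (b : ℕ → ℂ) (ψ : (ZMod M)ˣ → ℂ), F' ≠ 0 ∧
      (∀ p, p.Prime → ¬ p ∣ M → Tp p F' = b p • F') ∧ (∀ d, dia d F' = ψ d • F') ∧
      (∀ p, p.Prime → ¬ p ∣ M → Cong v (b p) (x p)) ∧ (∀ d, Cong v (ψ d) (χ d)) ∧
      (∀ p, p.Prime → ¬ p ∣ M → Cong v (w p * ψ (u p)) (e p)) := by
  classical
  let ι := {p : ℕ // p.Prime ∧ ¬ p ∣ M} ⊕ (ZMod M)ˣ
  let T : ι → Module.End ℂ S := Sum.elim (fun p => Tp p.1) dia
  let c : ℕ × (ZMod M)ˣ → S →ₗ[ℂ] ℂ := fun j => (a j.1).comp (dia j.2)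
  let α : ι → ℂ := Sum.elim (fun p => x p.1) χ
  have hdd : ∀ d d', Commute (dia d) (dia d') := by
    intro d d'
    show dia d * dia d' = dia d' * dia d
    rw [← dia_mul, ← dia_mul, mul_comm]
  have hcomm : ∀ i i', Commute (T i) (T i') := by
    rintro (p | d) (p' | d')
    · exact hTT _ _ p.2.1 p.2.2 p'.2.1 p'.2.2
    · exact hTd _ _ p.2.1 p.2.2
    · exact (hTd _ _ p'.2.1 p'.2.2).symm
    · exact hdd d d'
  -- the two formulas for the functionals
  have cT : ∀ (p : ℕ), p.Prime → ¬ p ∣ M → ∀ (n : ℕ) (d : (ZMod M)ˣ) (g : S),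
      c (n, d) (Tp p g) = c (p * n, d) g + w p * (if p ∣ n then c (n / p, u p * d) g else 0) := by
    intro p hp hpM n d g
    have h1 : dia d (Tp p g) = Tp p (dia d g) :=
      (LinearMap.congr_fun (hTd p d hp hpM).eq g).symm
    show a n (dia d (Tp p g)) = a (p * n) (dia d g) +
      w p * (if p ∣ n then a (n / p) (dia (u p * d) g) else 0)
    rw [h1, hcoeff p hp hpM, dia_mul]
    rfl
  have cd : ∀ (d' : (ZMod M)ˣ) (n : ℕ) (d : (ZMod M)ˣ) (g : S),
      c (n, d) (dia d' g) = c (n, d * d') g := by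
    intro d' n d g
    show a n (dia d (dia d' g)) = a n (dia (d * d') g)
    rw [dia_mul]
    rfl
  have hT1 : ∀ i g, (∀ j, v (c j g) ≤ 1) → ∀ j, v (c j (T i g)) ≤ 1 := by
    rintro (p | d') g hg ⟨n, d⟩
    · show v (c (n, d) (Tp p.1 g)) ≤ 1
      rw [cT p.1 p.2.1 p.2.2]
      refine v.map_add_le (hg _) ?_
      rw [map_mul]
      refine mul_le_one' (hw _) ?_
      split_ifs
      · exact hg _
      · rw [map_zero]; exact zero_le_one
    · show v (c (n, d) (dia d' g)) ≤ 1
      rw [cd]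
      exact hg _
  have hT2 : ∀ i g, (∀ j, v (c j g) < 1) → ∀ j, v (c j (T i g)) < 1 := by
    rintro (p | d') g hg ⟨n, d⟩
    · show v (c (n, d) (Tp p.1 g)) < 1
      rw [cT p.1 p.2.1 p.2.2]
      refine v.map_add_lt (hg _) ?_
      rw [map_mul]
      refine Right.mul_lt_one_of_le_of_lt (hw _) ?_
      split_ifs
      · exact hg _
      · rw [map_zero]; exact zero_lt_one
    · show v (c (n, d) (dia d' g)) < 1
      rw [cd]
      exact hg _
  have hcF : ∀ n d, Cong v (c (n, d) F) (χ d * x n) := hF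
  have hχx : ∀ d n, v (χ d * x n) ≤ 1 := fun d n => by
    rw [map_mul]; exact mul_le_one' (hχ d) (hx n)
  have hF0 : v (c (1, 1) F) = 1 := by
    apply Cong.val_eq_one
    refine (hcF 1 1).trans ?_
    rw [hx1, mul_one]
    exact hχ1
  have he : ∀ p, p.Prime → ¬ p ∣ M → v (e p) ≤ 1 := fun p hp hpM =>
    (hwe p hp hpM).symm.le_one (by rw [map_mul]; exact mul_le_one' (hw _) (hχ _))
  have hα1 : ∀ i, v (α i) ≤ 1 := by
    rintro (p | d)
    · exact hx _
    · exact hχ _
  have hα : ∀ i j, v (c j (T i F) - α i * c j F) < 1 := by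
    rintro (p | d') ⟨n, d⟩
    · obtain ⟨p, hp, hpM⟩ := p
      show Cong v (c (n, d) (Tp p F)) (x p * c (n, d) F)
      have h2 : Cong v (x p * c (n, d) F) (x p * (χ d * x n)) := Cong.mul_left (hx p) (hcF n d)
      refine Cong.trans ?_ h2.symm
      rw [cT p hp hpM]
      have h3 : x p * (χ d * x n) =
          χ d * x (p * n) + (if p ∣ n then e p * (χ d * x (n / p)) else 0) := by
        rw [mul_left_comm, ← hrel p hp hpM n]
        split_ifs <;> ring
      rw [h3]
      refine Cong.add (hcF _ _) ?_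
      split_ifs with hpn
      · have h4 : Cong v (w p * c (n / p, u p * d) F) (w p * (χ (u p * d) * x (n / p))) :=
          Cong.mul_left (hw p) (hcF _ _)
        have h5 : Cong v (w p * (χ (u p * d) * x (n / p))) (w p * ((χ (u p) * χ d) * x (n / p))) := by
          refine Cong.mul_left (hw p) ?_
          rw [mul_comm _ (x (n / p)), mul_comm _ (x (n / p))]
          exact Cong.mul_left (hx _) (hχmul _ _)
        have h6 : Cong v (w p * ((χ (u p) * χ d) * x (n / p))) (e p * (χ d * x (n / p))) := by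
          have e1 : w p * ((χ (u p) * χ d) * x (n / p)) = (χ d * x (n / p)) * (w p * χ (u p)) := by
            ring
          rw [e1, mul_comm (e p)]
          exact Cong.mul_left (hχx _ _) (hwe p hp hpM)
        exact (h4.trans h5).trans h6
      · rw [mul_zero]
        exact Cong.refl _
    · show Cong v (c (n, d) (dia d' F)) (χ d' * c (n, d) F)
      rw [cd]
      have h2 : Cong v (χ d' * c (n, d) F) (χ d' * (χ d * x n)) := Cong.mul_left (hχ d') (hcF n d)
      refine Cong.trans ((hcF n (d * d')).trans ?_) h2.symm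
      have e1 : χ d' * (χ d * x n) = x n * (χ d * χ d') := by ring
      rw [e1, mul_comm _ (x n)]
      exact Cong.mul_left (hx n) (hχmul d d')
  obtain ⟨F', β, hF'0, hβ, hβα⟩ := ds_abstract v T hcomm c hT1 hT2 F (1, 1) hF0 α hα1 hα
  refine ⟨F', fun p => if h : p.Prime ∧ ¬ p ∣ M then β (Sum.inl ⟨p, h⟩) else 0,
    fun d => β (Sum.inr d), hF'0, ?_, fun d => hβ (Sum.inr d), ?_, fun d => hβα (Sum.inr d), ?_⟩
  · intro p hp hpM
    have h : p.Prime ∧ ¬ p ∣ M := ⟨hp, hpM⟩
    simp only [dif_pos h]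
    exact hβ (Sum.inl ⟨p, hp, hpM⟩)
  · intro p hp hpM
    have h : p.Prime ∧ ¬ p ∣ M := ⟨hp, hpM⟩
    simp only [dif_pos h]
    exact hβα (Sum.inl ⟨p, hp, hpM⟩)
  · intro p hp hpM
    exact (Cong.mul_left (hw p) (hβα (Sum.inr (u p)))).trans (hwe p hp hpM)

end Fermat.Agent.S48.DS
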