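/-
S48 / DS / Instance : the weight two eigenform `F'` congruent to `f * G`  (valuation form).

INPUT
* `f ∈ S_1(Γ₁(L))` (the DEPLETED form of W0/W1, `L = N ^ 3`): `a_1 = 1`, all `a_n` algebraic integers,
  `⟨d⟩ f = ε(d) f`, formal Hecke relations;
* `G ∈ M_1(Γ₁(l))` (part E1) with `GCong v G`:
  for `γ ∈ Γ₀(l)`:  `a_0(G ∣ γ) * γ₁₁ ≡ 1`  and  `a_n(G ∣ γ) ≡ 0` (`n ≥ 1`);
* a valuation `v` of `ℂ` which is `≤ 1` on algebraic integers and `< 1` at `l`.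
OUTPUT (`DS.main_val`): `F' ≠ 0` in `S_2(Γ₁(L l))`, `T_p F' = b_p F'`, `⟨d⟩ F' = ψ(d) F'`,
`b_p ≡ a_p`, `ψ(d) ≡ χ(d) := ε(d) * (integer inverse of d)`, `p ψ(p) ≡ ε p`:  the input of `D1.exists_residual_val`.
-/
import Fermat.Agent.S48.DS.Formal
import Fermat.Agent.S48.H.Hecke
import Fermat.Agent.S48.D1.Defs
import Fermat.Agent.S23.Nice

set_option autoImplicit false

namespace Fermat.Agent.S48.DS

open CongruenceSubgroup ModularFormClass UpperHalfPlane Matrix.SpecialLinearGroup ModularForm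
open Fermat.Agent.S48.H
open Fermat.Agent.S23 (Nice qe)
open scoped MatrixGroups ModularForm Manifold Pointwise

noncomputable section

/-- `G ∣ γ` is nice for `γ ∈ Γ₀(ℓ)`. -/
theorem nice_slash {l : ℕ} {k : ℤ} (G : ModularForm (Gamma1 l) k) (γ : SL(2, ℤ))
    (hγ : (l : ℤ) ∣ γ 1 0) : Nice (⇑G ∣[k] (mapGL ℝ γ)) := by
  have h1 : (1 : ℝ) ∈ (ConjAct.toConjAct (mapGL ℝ γ)⁻¹ •
      (Gamma1 l : Subgroup (GL (Fin 2) ℝ))).strictPeriods := by
    rw [Subgroup.mem_strictPeriods_iff, Subgroup.mem_pointwise_smul_iff_inv_smul_mem]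
    have h0 := one_mem_strictPeriods_G1 l
    rw [Subgroup.mem_strictPeriods_iff] at h0
    obtain ⟨t, ht, hte⟩ := h0
    refine ⟨γ * t * γ⁻¹, Diamond_conj_mem_Gamma1 (Diamond_mem_Gamma0.mpr hγ) ht, ?_⟩
    rw [map_mul, map_mul, hte, map_inv, ConjAct.smul_def]
    simp
  exact Fermat.Agent.S23.IsMF.nice_of_strictPeriods h1 ⟨ModularForm.translate G (mapGL ℝ γ), rfl⟩

theorem mul_slash2 (f G : ℍ → ℂ) (γ : SL(2, ℤ)) :
    (f * G) ∣[(2 : ℤ)] (mapGL ℝ γ) = f ∣[(1 : ℤ)] (mapGL ℝ γ) * G ∣[(1 : ℤ)] (mapGL ℝ γ) :=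
  ModularForm.mul_slash_SL2 1 1 γ f G

theorem zero_mul_bdd {f g : ℍ → ℂ} (h1 : IsZeroAtImInfty f) (h2 : IsBoundedAtImInfty g) :
    IsZeroAtImInfty (f * g) := by
  have h1' : f =o[atImInfty] (fun _ => (1 : ℝ)) := (Asymptotics.isLittleO_one_iff ℝ).2 h1
  have h2' : g =O[atImInfty] (fun _ => (1 : ℝ)) := h2
  have h3 := h1'.mul_isBigO h2'
  simp only [mul_one] at h3
  exact (Asymptotics.isLittleO_one_iff ℝ).1 h3

theorem slash_invariantM {l : ℕ} {k : ℤ} (G : ModularForm (Gamma1 l) k) {g : SL(2, ℤ)}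
    (hg : g ∈ Gamma1 l) : ⇑G ∣[k] (mapGL ℝ g) = ⇑G :=
  SlashInvariantFormClass.slash_action_eq G _ (Subgroup.mem_map_of_mem _ hg)

/-- the product `f G ∈ S_2(Γ₁(L l))` of `f ∈ S_1(Γ₁(L))` and `G ∈ M_1(Γ₁(l))`. -/
def mulForm {L l : ℕ} [NeZero L] [NeZero l] (f : CuspForm (Gamma1 L) 1)
    (G : ModularForm (Gamma1 l) 1) : CuspForm (Gamma1 (L * l)) 2 where
  toFun := ⇑f * ⇑G
  slash_action_eq' γ hγ := by
    obtain ⟨g, hg, rfl⟩ := hγ
    rw [mul_slash2, slash_eq_self_of_mem_Gamma1 f g (Gamma1_le_of_dvd (Dvd.intro _ rfl) hg),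
      slash_invariantM G (Gamma1_le_of_dvd (Dvd.intro_left _ rfl) hg)]
  holo' := (CuspFormClass.holo f).mul (ModularFormClass.holo G)
  zero_at_cusps' {c} hc' := by
    have hc : IsCusp c 𝒮ℒ := (Subgroup.IsArithmetic.isCusp_iff_isCusp_SL2Z _).mp hc'
    rw [OnePoint.isZeroAt_iff_forall_SL2Z hc]
    intro γ hγ
    have e : (⇑f * ⇑G) ∣[(2 : ℤ)] γ = ⇑f ∣[(1 : ℤ)] γ * ⇑G ∣[(1 : ℤ)] γ :=
      ModularForm.mul_slash_SL2 1 1 γ _ _
    rw [e]
    have h1 : IsZeroAtImInfty (⇑f ∣[(1 : ℤ)] γ) :=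
      (OnePoint.isZeroAt_iff_forall_SL2Z hc).1 (CuspFormClass.zero_at_cusps f
        ((Subgroup.IsArithmetic.isCusp_iff_isCusp_SL2Z _).mpr hc)) γ hγ
    have h2 : IsBoundedAtImInfty (⇑G ∣[(1 : ℤ)] γ) :=
      (OnePoint.isBoundedAt_iff_forall_SL2Z hc).1 (ModularFormClass.bdd_at_cusps G
        ((Subgroup.IsArithmetic.isCusp_iff_isCusp_SL2Z _).mpr hc)) γ hγ
    exact zero_mul_bdd h1 h2

@[simp] theorem coe_mulForm {L l : ℕ} [NeZero L] [NeZero l] (f : CuspForm (Gamma1 L) 1)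
    (G : ModularForm (Gamma1 l) 1) : ⇑(mulForm f G) = ⇑f * ⇑G := rfl

/-- The `n`-th `q`-expansion coefficient as a linear form on the space of cusp forms. -/
def qCoeffLin (M : ℕ) (k : ℤ) (n : ℕ) : CuspForm (Gamma1 M) k →ₗ[ℂ] ℂ where
  toFun f := qCoeff f n
  map_add' f g := H.qCoeff_add f g n
  map_smul' c f := H.qCoeff_smul c f n

@[simp] theorem qCoeffLin_apply {M : ℕ} {k : ℤ} (n : ℕ) (f : CuspForm (Gamma1 M) k) :
    qCoeffLin M k n f = qCoeff f n := rfl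

theorem qCoeff_mul {f H : ℍ → ℂ} (hf : Nice f) (hH : Nice H) (n : ℕ) :
    qCoeff (f * H) n = ∑ x ∈ Finset.HasAntidiagonal.antidiagonal n, qCoeff f x.1 * qCoeff H x.2 := by
  have h := hf.qe_mul hH
  unfold qCoeff
  unfold qe at h
  rw [h, PowerSeries.coeff_mul]

theorem qCoeff_smul' {f : ℍ → ℂ} (hf : Nice f) (c : ℂ) (n : ℕ) :
    qCoeff (c • f) n = c * qCoeff f n := by
  have h := hf.qe_smul c
  unfold qCoeff
  unfold qe at h
  rw [h]
  simp

variable {Γ₀ : Type*} [LinearOrderedCommGroupWithZero Γ₀]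

theorem cong_qCoeff_mul (v : Valuation ℂ Γ₀) {f H : ℍ → ℂ} (hf : Nice f) (hH : Nice H)
    (hf1 : ∀ i, v (qCoeff f i) ≤ 1) (hH1 : ∀ j, 1 ≤ j → v (qCoeff H j) < 1) (n : ℕ) :
    Cong v (qCoeff (f * H) n) (qCoeff f n * qCoeff H 0) := by
  classical
  have e : qCoeff f n * qCoeff H 0 = ∑ x ∈ Finset.HasAntidiagonal.antidiagonal n,
      if x = (n, 0) then qCoeff f x.1 * qCoeff H x.2 else 0 := by
    rw [Finset.sum_ite_eq' (Finset.HasAntidiagonal.antidiagonal n) (n, 0) (fun x => qCoeff f x.1 * qCoeff H x.2),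
      if_pos (by simp)]
  unfold Cong
  rw [qCoeff_mul hf hH, e, ← Finset.sum_sub_distrib]
  refine v.map_sum_lt one_ne_zero fun x hx => ?_
  split_ifs with hx0
  · rw [sub_self, map_zero]; exact zero_lt_one
  · rw [sub_zero, map_mul]
    refine Right.mul_lt_one_of_le_of_lt (hf1 _) (hH1 _ ?_)
    rw [Finset.HasAntidiagonal.mem_antidiagonal] at hx
    rcases Nat.eq_zero_or_pos x.2 with h0 | h0
    · exact absurd (Prod.ext (by simp only; omega) h0) hx0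
    · exact h0

theorem isIntegral_intCast' (m : ℤ) : IsIntegral ℤ (m : ℂ) := by
  simpa using (isIntegral_algebraMap (R := ℤ) (A := ℂ) (x := m))

theorem isIntegral_natCast' (m : ℕ) : IsIntegral ℤ (m : ℂ) := by
  simpa using isIntegral_intCast' (m : ℤ)

theorem cong_intCast (v : Valuation ℂ Γ₀) (hint : ∀ x : ℂ, IsIntegral ℤ x → v x ≤ 1) {l M : ℕ}
    (hl : v (l : ℂ) < 1) (hlM : l ∣ M) {a b : ℤ} (h : (a : ZMod M) = (b : ZMod M)) :
    Cong v (a : ℂ) (b : ℂ) := by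
  rw [ZMod.intCast_eq_intCast_iff_dvd_sub] at h
  obtain ⟨m, hm⟩ := (Int.natCast_dvd_natCast.2 hlM).trans h
  unfold Cong
  have e : (a : ℂ) - b = -((l : ℂ) * m) := by
    have := congrArg (Int.cast : ℤ → ℂ) hm
    push_cast at this
    linear_combination -this
  rw [e, Valuation.map_neg, map_mul, mul_comm]
  exact Right.mul_lt_one_of_le_of_lt (hint _ (isIntegral_intCast' m)) hl

theorem isIntegral_eps {L : ℕ} [NeZero L] (ε : DirichletCharacter ℂ L) (a : ZMod L) :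
    IsIntegral ℤ (ε a) := by
  by_cases ha : IsUnit a
  · obtain ⟨u, rfl⟩ := ha
    have h1 : ε (u : ZMod L) ^ orderOf u = 1 := by
      rw [← map_pow, ← Units.val_pow_eq_pow_val, pow_orderOf_eq_one, Units.val_one, map_one]
    exact IsIntegral.of_pow (orderOf_pos u) (h1 ▸ isIntegral_one)
  · rw [MulChar.map_nonunit ε ha]
    exact isIntegral_zero

/-- the property of the weight one form `G` (part E1), for one valuation. -/
def GCong (v : Valuation ℂ Γ₀) {l : ℕ} (G : ModularForm (Gamma1 l) 1) : Prop :=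
  ∀ γ : SL(2, ℤ), (l : ℤ) ∣ γ 1 0 →
    Cong v (qCoeff (⇑G ∣[(1 : ℤ)] (mapGL ℝ γ)) 0 * ((γ 1 1 : ℤ) : ℂ)) 1 ∧
      ∀ n : ℕ, 1 ≤ n → v (qCoeff (⇑G ∣[(1 : ℤ)] (mapGL ℝ γ)) n) < 1

section main

variable {L l : ℕ} [NeZero L] [NeZero l]

/-- `a_n(⟨d⟩ (f G)) ≡ ε(d) d⁻¹ a_n(f)`. -/
theorem cong_diamond_mulForm (v : Valuation ℂ Γ₀) (hint : ∀ x : ℂ, IsIntegral ℤ x → v x ≤ 1)
    (hl : v (l : ℂ) < 1) (ε : (ZMod L)ˣ → ℂ) (hε : ∀ d, IsIntegral ℤ (ε d))
    (f : CuspForm (Gamma1 L) 1)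
    (hfint : ∀ n, IsIntegral ℤ (qCoeff f n))
    (hfdia : ∀ d : (ZMod L)ˣ, diamond 1 d f = ε d • f)
    (G : ModularForm (Gamma1 l) 1) (hG : GCong v G) (n : ℕ) (d : (ZMod (L * l))ˣ) :
    Cong v (qCoeff (diamond 2 d (mulForm f G)) n)
      (ε (ZMod.unitsMap (Dvd.intro l rfl : L ∣ L * l) d) *
        ((((d⁻¹ : (ZMod (L * l))ˣ) : ZMod (L * l)).val : ℕ) : ℂ) * qCoeff f n) := by
  have hLM : L ∣ L * l := Dvd.intro l rfl
  set γ : SL(2, ℤ) := diaMat (L * l) d with hγdef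
  have hγ : ((L * l : ℕ) : ℤ) ∣ γ 1 0 := diaMat_dvd (L * l) d
  have hγd : ((γ 1 1 : ℤ) : ZMod (L * l)) = d := diaMat_lowerRight (L * l) d
  have hγL : (L : ℤ) ∣ γ 1 0 := (Int.natCast_dvd_natCast.2 hLM).trans hγ
  have hγl : (l : ℤ) ∣ γ 1 0 := (Int.natCast_dvd_natCast.2 (Dvd.intro_left L rfl)).trans hγ
  obtain ⟨hG0, hG1⟩ := hG γ hγl
  set H : ℍ → ℂ := ⇑G ∣[(1 : ℤ)] (mapGL ℝ γ) with hH
  have hHn : Nice H := nice_slash G γ hγl
  have hfs : ⇑f ∣[(1 : ℤ)] (mapGL ℝ γ) = ε (ZMod.unitsMap hLM d) • ⇑f := by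
    rw [← coe_diamond 1 (ZMod.unitsMap hLM d) f hγL (by
      rw [ZMod.unitsMap_val, ← hγd]
      have : CharP (ZMod L) L := ZMod.charP L
      rw [ZMod.cast_intCast hLM]), hfdia]
    rfl
  have e1 : ⇑(diamond 2 d (mulForm f G)) = ε (ZMod.unitsMap hLM d) • (⇑f * H) := by
    rw [coe_diamond 2 d _ hγ hγd, coe_mulForm, mul_slash2, hfs, smul_mul_assoc]
  rw [e1, qCoeff_smul' ((nice f).mul hHn), mul_assoc]
  refine Cong.mul_left (hint _ (hε _)) ?_
  set s : ℕ := ((d⁻¹ : (ZMod (L * l))ˣ) : ZMod (L * l)).val with hs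
  set t : ℤ := γ 1 1 with ht
  set c0 : ℂ := qCoeff H 0 with hc0
  have hts : Cong v ((t : ℂ) * (s : ℂ)) 1 := by
    have h1 : (((t * (s : ℤ) : ℤ)) : ZMod (L * l)) = ((1 : ℤ) : ZMod (L * l)) := by
      push_cast
      rw [hγd, hs, ZMod.natCast_zmod_val, Units.mul_inv]
    have := cong_intCast v hint hl (Dvd.intro_left L rfl) h1
    simpa using this
  have hs1 : v (s : ℂ) ≤ 1 := hint _ (isIntegral_natCast' s)
  have ht1 : v (t : ℂ) ≤ 1 := hint _ (isIntegral_intCast' t)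
  have htv : v (t : ℂ) = 1 := by
    have h := hts.val_eq_one
    rw [map_mul] at h
    refine le_antisymm ht1 ?_
    by_contra hlt
    rw [not_le] at hlt
    have : v (t : ℂ) * v (s : ℂ) < 1 := by
      rw [mul_comm]
      exact Right.mul_lt_one_of_le_of_lt hs1 hlt
    exact absurd h this.ne
  have hc0v : v c0 ≤ 1 := by
    have h := hG0.val_eq_one
    rw [map_mul, htv, mul_one] at h
    exact h.le
  have hc0s : Cong v c0 (s : ℂ) := by
    have h1 : Cong v (c0 * ((t : ℂ) * s)) (c0 * 1) := Cong.mul_left hc0v hts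
    have h2 : Cong v ((s : ℂ) * (c0 * t)) ((s : ℂ) * 1) := Cong.mul_left hs1 hG0
    rw [mul_one] at h1 h2
    have e : c0 * ((t : ℂ) * s) = (s : ℂ) * (c0 * t) := by ring
    rw [e] at h1
    exact h1.symm.trans h2
  refine (cong_qCoeff_mul v (nice f) hHn (fun i => hint _ (hfint i)) hG1 n).trans ?_
  rw [mul_comm (s : ℂ)]
  exact Cong.mul_left (hint _ (hfint n)) hc0s

open Fermat.Agent.ES.D (GoodPrime) in
/-- **Main theorem of part DS** (valuation form). -/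
theorem main_val (v : Valuation ℂ Γ₀) (hint : ∀ x : ℂ, IsIntegral ℤ x → v x ≤ 1)
    (hlv : v (l : ℂ) < 1) (ε : (ZMod L)ˣ →* ℂˣ) (e : ℕ → ℂ)
    (he : ∀ (p : ℕ) (hp : p.Prime) (hpL : ¬ p ∣ L), e p = ε (pUnit hp hpL))
    (f : CuspForm (Gamma1 L) 1)
    (hf1 : qCoeff f 1 = 1) (hfint : ∀ n, IsIntegral ℤ (qCoeff f n))
    (hfdia : ∀ d : (ZMod L)ˣ, diamond 1 d f = (ε d : ℂ) • f)
    (hrel : ∀ p : ℕ, p.Prime → ¬ p ∣ L → ∀ n : ℕ,
      qCoeff f (p * n) + e p * (if p ∣ n then qCoeff f (n / p) else 0) =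
        qCoeff f p * qCoeff f n)
    (G : ModularForm (Gamma1 l) 1) (hGv : GCong v G) :
    ∃ (F' : CuspForm (Gamma1 (L * l)) 2) (b : GoodPrime (L * l) → ℂ)
      (ψ : (ZMod (L * l))ˣ → ℂ) (χ : (ZMod (L * l))ˣ → integralClosure ℤ ℂ), F' ≠ 0 ∧
      (∀ p : GoodPrime (L * l), heckeT 2 p.2.1 p.2.2 F' = b p • F') ∧
      (∀ d, diamond 2 d F' = ψ d • F') ∧
      (∀ p : GoodPrime (L * l), v (b p - qCoeff f p.1) < 1) ∧
      (∀ d, v (ψ d - (χ d : ℂ)) < 1) ∧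
      (∀ p : GoodPrime (L * l), v ((p.1 : ℂ) * ψ (D1.gpUnit p) - e p.1) < 1) := by
  classical
  set M : ℕ := L * l with hM
  have hlM : l ∣ M := Dvd.intro_left L rfl
  have hLM : L ∣ M := Dvd.intro l rfl
  have hεint : ∀ d : (ZMod L)ˣ, IsIntegral ℤ ((ε d : ℂˣ) : ℂ) := by
    intro d
    have h1 : ((ε d : ℂˣ) : ℂ) ^ orderOf d = 1 := by
      rw [← Units.val_pow_eq_pow_val, ← map_pow, pow_orderOf_eq_one, map_one, Units.val_one]
    exact IsIntegral.of_pow (orderOf_pos d) (h1 ▸ isIntegral_one)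
  let inv : (ZMod M)ˣ → ℕ := fun d => ((d⁻¹ : (ZMod M)ˣ) : ZMod M).val
  let χ : (ZMod M)ˣ → ℂ := fun d => (ε (ZMod.unitsMap hLM d) : ℂ) * (inv d : ℂ)
  have hχint : ∀ d, IsIntegral ℤ (χ d) := fun d => (hεint _).mul (isIntegral_natCast' _)
  let u : ℕ → (ZMod M)ˣ := fun p => if h : p.Prime ∧ ¬ p ∣ M then pUnit h.1 h.2 else 1
  let Tp : ℕ → Module.End ℂ (CuspForm (Gamma1 M) 2) :=
    fun p => if h : p.Prime ∧ ¬ p ∣ M then heckeT 2 h.1 h.2 else 0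
  have hTp : ∀ p (hp : p.Prime) (hpM : ¬ p ∣ M), Tp p = heckeT 2 hp hpM := by
    intro p hp hpM
    have h : p.Prime ∧ ¬ p ∣ M := ⟨hp, hpM⟩
    simp only [Tp, dif_pos h]
  have hu : ∀ p (hp : p.Prime) (hpM : ¬ p ∣ M), u p = pUnit hp hpM := by
    intro p hp hpM
    have h : p.Prime ∧ ¬ p ∣ M := ⟨hp, hpM⟩
    simp only [u, dif_pos h]
  have hinv : ∀ d : (ZMod M)ˣ, ((inv d : ℤ) : ZMod M) = ((d⁻¹ : (ZMod M)ˣ) : ZMod M) := by
    intro d
    simp only [inv, Int.cast_natCast, ZMod.natCast_zmod_val]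
  have hinv1 : ∀ d, v (inv d : ℂ) ≤ 1 := fun d => hint _ (isIntegral_natCast' _)
  have hε1 : ∀ a, v ((ε a : ℂˣ) : ℂ) ≤ 1 := fun a => hint _ (hεint a)
  have : FiniteDimensional ℂ (CuspForm (Gamma1 M) 2) := H.finiteDimensional M 2
  obtain ⟨F', b, ψ, hF'0, hb, hψ, hbx, hψχ, hwψ⟩ := ds_formal v M
    (fun n => qCoeffLin M 2 n) (fun d => diamond 2 d) (fun d d' => diamond_mul 2 d d') Tp
    (by
      intro p p' hp hpM hp' hpM'
      rw [hTp p hp hpM, hTp p' hp' hpM']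
      exact LinearMap.ext fun g => heckeT_comm 2 hp hpM hp' hpM' g)
    (by
      intro p d hp hpM
      rw [hTp p hp hpM]
      exact LinearMap.ext fun g => (diamond_heckeT 2 hp hpM d g).symm)
    u (fun p => (p : ℂ)) (fun p => hint _ (isIntegral_natCast' p))
    (by
      intro p hp hpM n g
      rw [hTp p hp hpM, hu p hp hpM]
      simp only [qCoeffLin_apply]
      rw [H.qCoeff_heckeT 2 hp hpM g n]
      congr 1
      split_ifs
      · norm_num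
      · rw [mul_zero])
    (mulForm f G) (fun n => qCoeff f n) χ e
    (fun n => hint _ (hfint n))
    (fun d => hint _ (hχint d))
    (by
      have h1 : Cong v ((inv 1 : ℤ) : ℂ) ((1 : ℤ) : ℂ) :=
        cong_intCast v hint hlv hlM (by rw [hinv]; simp)
      simp only [χ, map_one, Units.val_one, one_mul]
      simpa using h1)
    (by
      intro d d'
      have h1 : Cong v ((inv (d * d') : ℤ) : ℂ) (((inv d : ℤ) * (inv d' : ℤ) : ℤ) : ℂ) :=
        cong_intCast v hint hlv hlM (by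
          rw [Int.cast_mul, hinv, hinv, hinv, mul_inv, Units.val_mul])
      simp only [χ, map_mul, Units.val_mul]
      have e : (ε (ZMod.unitsMap hLM d) : ℂ) * (inv d : ℂ) *
            ((ε (ZMod.unitsMap hLM d') : ℂ) * (inv d' : ℂ))
          = (ε (ZMod.unitsMap hLM d) : ℂ) * (ε (ZMod.unitsMap hLM d') : ℂ) *
            ((inv d : ℂ) * (inv d' : ℂ)) := by ring
      rw [e]
      refine Cong.mul_left (by rw [map_mul]; exact mul_le_one' (hε1 _) (hε1 _)) ?_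
      simpa using h1)
    hf1
    (fun p hp hpM n => hrel p hp (fun h => hpM (h.mul_right l)) n)
    (by
      intro p hp hpM
      have hpL : ¬ p ∣ L := fun h => hpM (h.mul_right l)
      have h1 : Cong v (((p : ℤ) * (inv (u p) : ℤ) : ℤ) : ℂ) ((1 : ℤ) : ℂ) :=
        cong_intCast v hint hlv hlM (by
          rw [Int.cast_mul, hinv, hu p hp hpM, Int.cast_natCast, Int.cast_one,
            ← coe_pUnit (M := M) hp hpM, Units.mul_inv])
      have h2 : ZMod.unitsMap hLM (u p) = pUnit hp hpL := by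
        rw [hu p hp hpM]
        apply Units.ext
        rw [ZMod.unitsMap_val, coe_pUnit, coe_pUnit, ZMod.cast_natCast hLM]
      simp only [χ]
      rw [h2, he p hp hpL]
      have e : (p : ℂ) * ((ε (pUnit hp hpL) : ℂ) * (inv (u p) : ℂ))
          = (ε (pUnit hp hpL) : ℂ) * ((p : ℂ) * (inv (u p) : ℂ)) := by ring
      rw [e]
      have h3 := Cong.mul_left (hε1 (pUnit hp hpL)) h1
      simpa using h3)
    (fun n d => cong_diamond_mulForm v hint hlv (fun d => (ε d : ℂ)) hεint f hfint hfdia G hGv n d)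
  refine ⟨F', fun p => b p.1, ψ, fun d => ⟨χ d, hχint d⟩, hF'0, ?_, hψ, ?_, hψχ, ?_⟩
  · intro p
    rw [← hTp p.1 p.2.1 p.2.2]
    exact hb p.1 p.2.1 p.2.2
  · intro p
    exact hbx p.1 p.2.1 p.2.2
  · intro p
    have h := hwψ p.1 p.2.1 p.2.2
    rw [hu p.1 p.2.1 p.2.2] at h
    exact h

end main

end

end Fermat.Agent.S48.DS
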