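/-
S48 / DS / Eigenvector : stub (2) of `Gal/Inputs.lean`:  W1.main (depletion + nebentypus, level `N ^ 3`) + E1.main (the form `G`)
+ `DS.main_val`.
-/
import Fermat.Agent.S48.DS.Instance
import Fermat.Agent.S48.W1.Nebentypus
import Fermat.Agent.S48.E1.Main
import Fermat.Agent.S48.MF.Conj

set_option autoImplicit false

namespace Fermat.Agent.S48.DS

open CongruenceSubgroup ModularFormClass UpperHalfPlane Matrix.SpecialLinearGroup ModularForm
open Fermat.Agent.S48.H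
open Fermat.Agent.ES.D (GoodPrime)
open scoped MatrixGroups ModularForm Manifold

/-- all the coefficients of a formal eigensystem are integral as soon as `a_0`, `a_p`, `e_p` are. -/
theorem isIntegral_of_isEigensystem {e a : ℕ → ℂ} (h : FormalHecke.IsEigensystem e a)
    (h0 : IsIntegral ℤ (a 0))
    (ha : ∀ p : ℕ, p.Prime → IsIntegral ℤ (a p)) (he : ∀ p : ℕ, p.Prime → IsIntegral ℤ (e p)) (n : ℕ) :
    IsIntegral ℤ (a n) := by
  induction n using Nat.strong_induction_on with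
  | _ n ih =>
    rcases Nat.lt_or_ge n 2 with hn | hn
    · interval_cases n
      · exact h0
      · rw [h.1]; exact isIntegral_one
    · have hp : (n.minFac).Prime := Nat.minFac_prime (by omega)
      obtain ⟨m, hm⟩ := Nat.minFac_dvd n
      have hmlt : m < n := by
        have h2 := hp.two_le
        have hm0 : 0 < m := by
          rcases Nat.eq_zero_or_pos m with h0 | h0
          · rw [h0, mul_zero] at hm; omega
          · exact h0
        calc m < n.minFac * m := by nlinarith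
          _ = n := hm.symm
      have key := h.2 n.minFac hp m
      rw [← hm] at key
      have e1 : a n = a n.minFac * a m - e n.minFac * (if n.minFac ∣ m then a (m / n.minFac) else 0) := by
        rw [← key]; ring
      rw [e1]
      refine ((ha _ hp).mul (ih m hmlt)).sub ((he _ hp).mul ?_)
      split_ifs
      · exact ih _ (lt_of_le_of_lt (Nat.div_le_self _ _) hmlt)
      · exact isIntegral_zero

/-- **Stub (2) of `Gal/Inputs.lean`.** -/
theorem exists_eigenvector (N : ℕ) [NeZero N] (ε : DirichletCharacter ℂ N)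
    (f : CuspForm (Gamma1 N) 1) (hf : IsFormalEigen N ε f) :
    ∃ ℓ₀ : ℕ, ∀ ℓ : ℕ, ℓ.Prime → ℓ₀ < ℓ → ∀ [NeZero (N ^ 3 * ℓ)] (𝒱 : ValuationSubring ℂ),
      (∀ x : ℂ, IsIntegral ℤ x → 𝒱.valuation x ≤ 1) → 𝒱.valuation (ℓ : ℂ) < 1 →
      ∃ (F : CuspForm (Gamma1 (N ^ 3 * ℓ)) 2) (b : GoodPrime (N ^ 3 * ℓ) → ℂ)
        (ψ : (ZMod (N ^ 3 * ℓ))ˣ → ℂ) (χ : (ZMod (N ^ 3 * ℓ))ˣ → Zbar), F ≠ 0 ∧
        (∀ p : GoodPrime (N ^ 3 * ℓ), heckeT 2 p.2.1 p.2.2 F = b p • F) ∧
        (∀ d, diamond 2 d F = ψ d • F) ∧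
        (∀ p, 𝒱.valuation (b p - ModularFormClass.qCoeff f p.1) < 1) ∧
        (∀ d, 𝒱.valuation (ψ d - (χ d : ℂ)) < 1) ∧
        (∀ p, 𝒱.valuation ((p.1 : ℂ) * ψ (D1.gpUnit p) - ε (p.1 : ZMod N)) < 1) := by
  refine ⟨4, fun ℓ hℓ h4 _ 𝒱 hint hlv => ?_⟩
  have h5 : 5 ≤ ℓ := h4
  have : NeZero ℓ := ⟨hℓ.ne_zero⟩
  have hNL : N ∣ N ^ 3 := Dvd.intro_left (N ^ 2) (by ring)
  obtain ⟨f', hf'c, hf'e, hf'd, -⟩ := W1.main N ε f hf.1 hf.2
  obtain ⟨G, -, hG⟩ := E1.main ℓ hℓ h5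
  have hlam := E1.valuation_lam_lt_one hℓ h5 𝒱.valuation hint hlv
  have hGv : GCong 𝒱.valuation G := by
    intro γ hγ
    obtain ⟨-, h0, hn⟩ := hG γ hγ
    refine ⟨?_, fun n hn1 => ?_⟩
    · have := E1.CongL.valuation_lt_one 𝒱.valuation hint hlam h0
      unfold Cong
      rwa [mul_comm]
    · have := E1.CongL.valuation_lt_one 𝒱.valuation hint hlam (hn n hn1)
      rwa [sub_zero] at this
  have hfint : ∀ n, IsIntegral ℤ (qCoeff f' n) := by
    refine isIntegral_of_isEigensystem hf'e ?_ ?_ (fun p _ => isIntegral_eps ε _)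
    · rw [H.qCoeff_zero]; exact isIntegral_zero
    · intro p hp
      rw [hf'c p]
      split_ifs with hc
      · exact MF.isIntegral_qCoeff' N ε f hf p hp ((Nat.Prime.coprime_iff_not_dvd hp).mp hc)
      · exact isIntegral_zero
  obtain ⟨F', b, ψ, χ, hF', hb, hψ, hbx, hψχ, hwψ⟩ := main_val (L := N ^ 3) (l := ℓ) 𝒱.valuation hint hlv
    ((MulChar.toUnitHom ε).comp (ZMod.unitsMap hNL)) (fun p => ε (p : ZMod N))
    (by
      intro p hp hpL
      rw [MonoidHom.comp_apply, MulChar.coe_toUnitHom, ZMod.unitsMap_val, coe_pUnit,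
        ZMod.cast_natCast hNL])
    f' hf'e.1 hfint
    (by
      intro d
      rw [hf'd d, MonoidHom.comp_apply, MulChar.coe_toUnitHom])
    (fun p hp _ n => hf'e.2 p hp n) G hGv
  refine ⟨F', b, ψ, χ, hF', hb, hψ, fun p => ?_, hψχ, hwψ⟩
  have hpN : ¬ p.1 ∣ N := fun h => p.2.2 (Dvd.dvd.mul_right (h.trans hNL) ℓ)
  have := hbx p
  rwa [hf'c p.1, if_pos ((Nat.Prime.coprime_iff_not_dvd p.2.1).mpr hpN)] at this

end Fermat.Agent.S48.DS
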