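/-
S48 / DS / Integral : eigenvalues of `T_p` on `S_2(Γ₁(M))` are algebraic integers, as a formal consequence of
`ES1Module.supp` (`T_p` satisfies `X^n = X^m` on the finite group `V`).
-/
import Fermat.Agent.S48.D1.Defs
import Fermat.Agent.ES.D.Eigen

set_option autoImplicit false

namespace Fermat.Agent.S48.DS

open Fermat.Agent.ES Fermat.Agent.ES.D Fermat.Agent.S48.D1 Polynomial

/-- the eigenvalues of `T_p` on `S_2(Γ₁(M))` are algebraic integers: consequence of `ES1Module.supp`. -/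
theorem isIntegral_of_ES1Module {M l : ℕ} {W : Type} [AddCommGroup W] [Module ℂ W]
    {TW : GoodPrime M → Module.End ℂ W} {DW : (ZMod M)ˣ → Module.End ℂ W}
    (E : ES1Module M l W TW DW) (p : GoodPrime M) (F : W) (c : ℂ) (hF : F ≠ 0)
    (h : TW p F = c • F) : IsIntegral ℤ c := by
  classical
  have hfin : Finite (Module.End ℤ E.V) :=
    Finite.of_injective (fun f : Module.End ℤ E.V => (f : E.V → E.V)) DFunLike.coe_injective
  obtain ⟨m, n, hmn, hT⟩ := Finite.exists_ne_map_eq_of_infinite (fun n : ℕ => E.T p ^ n)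
  wlog hlt : m < n generalizing m n
  · exact this n m hmn.symm hT.symm (lt_of_le_of_ne (not_lt.1 hlt) hmn.symm)
  obtain ⟨k, rfl⟩ : ∃ k, n = k + 1 := ⟨n - 1, by omega⟩
  let Y : FreeAlgebra ℤ (GoodPrime M ⊕ (ZMod M)ˣ) := FreeAlgebra.ι ℤ (Sum.inl p)
  obtain ⟨Q, hQ, hPQ⟩ := E.supp (Y ^ (k + 1) - Y ^ m) (by
    simp only [Y, map_sub, map_pow, FreeAlgebra.lift_ι_apply, Sum.elim_inl]
    rw [sub_eq_zero]
    exact hT.symm)
  simp only [Y, map_sub, map_pow, FreeAlgebra.lift_ι_apply, Sum.elim_inl] at hPQ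
  have hpow : ∀ n : ℕ, (TW p ^ n) F = c ^ n • F := by
    intro n
    induction n with
    | zero => simp
    | succ n ih => rw [pow_succ, Module.End.mul_apply, h, map_smul, ih, smul_smul, pow_succ, mul_comm]
  have h1 : ((l : ℤ) • Q) F = (c ^ (k + 1) - c ^ m) • F := by
    rw [← hPQ, LinearMap.sub_apply, hpow, hpow, sub_smul]
  have h2 : IsIntegral ℤ (c ^ (k + 1) - c ^ m) := isIntegral_of_eigen _ (hQ.smul (l : ℤ)) hF h1
  have hdeg : ((X : ℤ[X]) ^ m).degree < ((k + 1 : ℕ) : WithBot ℕ) := by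
    rw [degree_X_pow]
    exact_mod_cast hlt
  have hmonic : ((X : ℤ[X]) ^ (k + 1) - X ^ m).Monic := monic_X_pow_sub hdeg
  refine IsIntegral.of_aeval_monic hmonic ?_ (by simpa using h2)
  rw [natDegree_sub_eq_left_of_natDegree_lt (by rw [natDegree_X_pow, natDegree_X_pow]; exact hlt),
    natDegree_X_pow]
  omega

end Fermat.Agent.S48.DS
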